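import Fermat.Agent.S24.PrincipalDiv
import Fermat.Agent.S24.Kaehler
import Fermat.Prelude.Def_AlgebraicCurve_IsCurveOver

/-!
# P-S27, block Cx: a function field of one variable is a curve (helper11)

For `K` algebraically closed of characteristic zero, `x : F` transcendental over `K` and
`F / K(x)` finite, the Prelude class `IsCurveOver K F` holds and `F` is essentially of finite
type over `K`.  (The converse direction is `S27x/Glue/SeparatingElement.lean`.)
-/

set_option autoImplicit false

open IntermediateField AlgebraicCurve KaehlerDifferential

namespace Fermat.Agent.S27x.Cx

variable {K F : Type*} [Field K] [Field F] [Algebra K F] [IsAlgClosed K] [CharZero K]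

/-- A function field of one variable over an algebraically closed field of characteristic zero
is a curve in the sense of the Prelude. -/
theorem isCurveOver_of_transcendental {x : F} (hx : Transcendental K x)
    [FiniteDimensional K⟮x⟯ F] : IsCurveOver K F where
  toHasPrincipalDivisors := Fermat.Agent.S24.PD.hasPrincipalDivisors hx
  finiteResidue v := Fermat.Agent.S24.PD.finite_residueField hx v
  kaehler_free_rank_one :=
    haveI : Algebra.IsAlgebraic K⟮x⟯ F := Algebra.IsAlgebraic.of_finite _ _
    ⟨Module.Free.of_divisionRing F Ω[F⁄K], Fermat.Agent.S24.Kaehler.finrank_kaehler x hx⟩

/-- A function field of one variable is essentially of finite type over its constant field. -/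
theorem essFiniteType_of_finite (x : F) [FiniteDimensional K⟮x⟯ F] : Algebra.EssFiniteType K F :=
  Fermat.Agent.S24.Kaehler.essFiniteType_of_finiteDimensional_adjoin x

end Fermat.Agent.S27x.Cx
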