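import Fermat.Agent.S27x.Cx.Defs
import Fermat.Agent.S27x.Cx.Curve
import Fermat.Agent.S24.PrincDiv

/-!
# P-S27, block Cx: the complexification is a function field of one variable (helper11)

For `D : EmbData K F ι x Γ` with `F / K(x)` finite:

* `transcendental_xC`: `xC D` (`= j`) is transcendental over `ℂ`;
* `finiteDimensional_FC`: `FC D` is finite over `ℂ(xC D)` (it is generated over `ℂ(j)` by the image
  of a `K(x)`-basis of `F`, and `F` is algebraic over `K(x)`);
* `isCurveOver_FC`, `essFiniteType_FC`: `FC D / ℂ` is a curve in the sense of the Prelude.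
-/

set_option autoImplicit false

open scoped MatrixGroups
open IntermediateField AlgebraicCurve

noncomputable section

namespace Fermat.Agent.S27x.Cx

open Fermat.Agent.S24 Fermat.Agent.S24.Conj
open Fermat.Agent.Gateway.Dict.ConjAbs

variable {K : Type*} {F : Type*} [Field K] [Field F] [Algebra K F] {ι : K →+* ℂ} {x : F}
  {Γ : Subgroup SL(2, ℤ)} (D : EmbData K F ι x Γ)

/-! ### `j` is transcendental -/

/-- `j` is not a constant. -/
theorem algebraMap_jHol_ne_const (c : ℂ) : algebraMap HolFun MerFun jHol ≠ const c := by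
  intro h
  have h1 : jHol = algebraMap ℂ HolFun c := IsFractionRing.injective HolFun MerFun h
  have h2 : jFn UpperHalfPlane.I = c := by
    have := congrArg (fun f : HolFun => (f : UpperHalfPlane → ℂ) UpperHalfPlane.I) h1
    simpa using this
  apply Bridge.jHol_sub_const_ne_zero UpperHalfPlane.I
  rw [h2, h1, sub_self]

/-- `xC D = j` is transcendental over `ℂ`. -/
theorem transcendental_xC : Transcendental ℂ (xC D) := by
  apply PDiv.transcendental_of_notMem_range
  rintro ⟨c, hc⟩
  apply algebraMap_jHol_ne_const c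
  rw [← coe_xC D, ← hc]
  rfl

/-! ### Finiteness over `ℂ(j)` -/

/-- `embC` maps `K(x)` into `ℂ(xC)`. -/
theorem embC_mem_adjoin (e : K⟮x⟯) : embC D (e : F) ∈ ℂ⟮xC D⟯ := by
  obtain ⟨e, he⟩ := e
  show embC D e ∈ ℂ⟮xC D⟯
  induction he using IntermediateField.adjoin_induction with
  | mem y hy =>
    rw [Set.mem_singleton_iff] at hy
    subst hy
    exact mem_adjoin_simple_self ℂ (xC D)
  | algebraMap c =>
    have : embC D (algebraMap K F c) = algebraMap ℂ (FC D) (ι c) :=
      Subtype.ext (D.emb_const c)
    rw [this]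
    exact IntermediateField.algebraMap_mem _ _
  | add a b _ _ ha hb =>
    rw [map_add]
    exact add_mem ha hb
  | inv a _ ha =>
    rw [map_inv₀]
    exact inv_mem ha
  | mul a b _ _ ha hb =>
    rw [map_mul]
    exact mul_mem ha hb

/-- The restriction of `embC` to `K(x) → ℂ(xC)`. -/
def embAdjoin : K⟮x⟯ →+* ℂ⟮xC D⟯ :=
  ((embC D).comp (algebraMap K⟮x⟯ F)).codRestrict (ℂ⟮xC D⟯).toSubring (embC_mem_adjoin D)

theorem algebraMap_embAdjoin (e : K⟮x⟯) :
    algebraMap ℂ⟮xC D⟯ (FC D) (embAdjoin D e) = embC D (algebraMap K⟮x⟯ F e) := rfl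

/-- The image of an element of `F` which is algebraic over `K(x)` is algebraic over `ℂ(xC)`. -/
theorem isAlgebraic_embC {f : F} (hf : IsAlgebraic K⟮x⟯ f) : IsAlgebraic ℂ⟮xC D⟯ (embC D f) :=
  hf.ringHom_of_comp_eq (embAdjoin D) (embC D) (embAdjoin D).injective (RingHom.ext fun _ => rfl)

variable [FiniteDimensional K⟮x⟯ F]

/-- **The complexification is finite over `ℂ(j)`.** -/
theorem finiteDimensional_FC : FiniteDimensional ℂ⟮xC D⟯ (FC D) := by
  classical
  let b := Module.finBasis K⟮x⟯ F
  let S : Set (FC D) := Set.range fun i => embC D (b i)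
  have hSfin : Finite S := Set.finite_range _
  have hSint : ∀ y ∈ S, IsIntegral ℂ⟮xC D⟯ y := by
    rintro _ ⟨i, rfl⟩
    exact (isAlgebraic_embC D (Algebra.IsAlgebraic.isAlgebraic (b i))).isIntegral
  have hfin : FiniteDimensional ℂ⟮xC D⟯ (IntermediateField.adjoin ℂ⟮xC D⟯ S) :=
    IntermediateField.finiteDimensional_adjoin hSint
  -- the adjunction is everything
  have htop : IntermediateField.adjoin ℂ⟮xC D⟯ S = ⊤ := by
    have h1 : (IntermediateField.adjoin ℂ⟮xC D⟯ S).restrictScalars ℂ = ⊤ := by
      apply eq_top_of_range_embC_le D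
      intro f
      show embC D f ∈ IntermediateField.adjoin ℂ⟮xC D⟯ S
      rw [← b.sum_repr f, map_sum]
      refine sum_mem fun i _ => ?_
      rw [Algebra.smul_def, map_mul]
      refine mul_mem ?_ (IntermediateField.subset_adjoin _ _ ⟨i, rfl⟩)
      have : embC D (algebraMap K⟮x⟯ F (b.repr f i)) =
          algebraMap ℂ⟮xC D⟯ (FC D) (embAdjoin D (b.repr f i)) := rfl
      rw [this]
      exact IntermediateField.algebraMap_mem _ _
    rw [eq_top_iff]
    intro y _
    have : y ∈ (IntermediateField.adjoin ℂ⟮xC D⟯ S).restrictScalars ℂ := by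
      rw [h1]
      exact IntermediateField.mem_top
    exact this
  rw [htop] at hfin
  exact (IntermediateField.topEquiv (F := ℂ⟮xC D⟯) (E := FC D)).toLinearEquiv.finiteDimensional

/-- **The complexification is a curve over `ℂ`.** -/
theorem isCurveOver_FC : IsCurveOver ℂ (FC D) :=
  haveI := finiteDimensional_FC D
  isCurveOver_of_transcendental (transcendental_xC D)

/-- The complexification is essentially of finite type over `ℂ`. -/
theorem essFiniteType_FC : Algebra.EssFiniteType ℂ (FC D) :=
  haveI := finiteDimensional_FC D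
  essFiniteType_of_finite (xC D)

end Fermat.Agent.S27x.Cx
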