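import Fermat.Agent.Gateway.Dict.ConjAbs
import Fermat.Agent.S24.CuspOrdMer
import Fermat.Agent.S24.Bridge

/-!
# P-S27, block Cx: the complexification of an analytically embedded function field (helper11)

`D : Dict.ConjAbs.EmbData K F ι x Γ` realises the function field `F / K` inside the field `MerFun`
of meromorphic functions on the upper half-plane (constants via `ι : K →+* ℂ`, `x ↦ j`, stabiliser
exactly `Γ`).  The *complexification* `FC D` is the subfield of `MerFun` generated by the complex
constants and the image of `F` (a compositum inside `MerFun`; no tensor products).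

* `FC D : Subfield MerFun`, with `Algebra ℂ (FC D)` (constants) and `embC D : F →+* FC D`;
* `Algebra F (FC D)`, `Algebra K (FC D)`, `Algebra K ℂ` as explicit (reducible) definitions,
  together with the two towers `K → F → FC D` and `K → ℂ → FC D`;
* `adjoin_range_embC`: `FC D` is generated over `ℂ` by the image of `F`;
* `embDataC D : EmbData ℂ (FC D) (RingHom.id ℂ) (xC D) Γ` with `emb` the inclusion;
* `isCuspMer_smul_coe`: cusp-meromorphy of all `SL(2,ℤ)`-translates is inherited.
-/

set_option autoImplicit false

open scoped MatrixGroups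

noncomputable section

namespace Fermat.Agent.S27x.Cx

open Fermat.Agent.S24 Fermat.Agent.S24.Conj Fermat.Agent.S24.CuspOrd
open Fermat.Agent.Gateway.Dict.ConjAbs

/-- The complex constants, as a ring homomorphism into `MerFun`. -/
def constHom : ℂ →+* MerFun := (algebraMap HolFun MerFun).comp (algebraMap ℂ HolFun)

@[simp] theorem constHom_apply (c : ℂ) : constHom c = const c := rfl

variable {K : Type*} {F : Type*} [Field K] [Field F] [Algebra K F] {ι : K →+* ℂ} {x : F}
  {Γ : Subgroup SL(2, ℤ)} (D : EmbData K F ι x Γ)

/-- **The complexification**: the subfield of `MerFun` generated by the complex constants and the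
image of `F`. -/
def FC : Subfield MerFun := Subfield.closure (Set.range constHom ∪ Set.range D.emb)

theorem const_mem_FC (c : ℂ) : const c ∈ FC D :=
  Subfield.subset_closure (Or.inl ⟨c, rfl⟩)

theorem emb_mem_FC (f : F) : D.emb f ∈ FC D :=
  Subfield.subset_closure (Or.inr ⟨f, rfl⟩)

/-- The constants of the complexification. -/
def constC : ℂ →+* FC D := constHom.codRestrict (FC D) (const_mem_FC D)

/-- The `ℂ`-algebra structure of the complexification. -/
instance instAlgebraFC : Algebra ℂ (FC D) := (constC D).toAlgebra

@[simp] theorem coe_algebraMap_FC (c : ℂ) : ((algebraMap ℂ (FC D) c : FC D) : MerFun) = const c :=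
  rfl

/-- The embedding of `F` into its complexification. -/
def embC : F →+* FC D := D.emb.codRestrict (FC D) (emb_mem_FC D)

@[simp] theorem coe_embC (f : F) : ((embC D f : FC D) : MerFun) = D.emb f := rfl

/-- The image of `x` in the complexification (it is `j`). -/
def xC : FC D := embC D x

theorem coe_xC : ((xC D : FC D) : MerFun) = algebraMap HolFun MerFun jHol := D.emb_x

/-! ### The algebra structures -/

/-- `F → FC D` as an algebra (declare it as a local instance where needed). -/
@[reducible] def algebraF : Algebra F (FC D) := (embC D).toAlgebra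

/-- `K → FC D` as an algebra (declare it as a local instance where needed). -/
@[reducible] def algebraK : Algebra K (FC D) := ((embC D).comp (algebraMap K F)).toAlgebra

/-- `ι : K → ℂ` as an algebra (declare it as a local instance where needed). -/
@[reducible] def algebraι (ι : K →+* ℂ) : Algebra K ℂ := ι.toAlgebra

theorem isScalarTower_K_F_FC :
    letI := algebraF D
    letI := algebraK D
    IsScalarTower K F (FC D) :=
  letI := algebraF D
  letI := algebraK D
  IsScalarTower.of_algebraMap_eq fun _ => rfl

theorem isScalarTower_K_C_FC :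
    letI := algebraι ι
    letI := algebraK D
    IsScalarTower K ℂ (FC D) :=
  letI := algebraι ι
  letI := algebraK D
  IsScalarTower.of_algebraMap_eq fun c => Subtype.ext (D.emb_const c)

/-! ### Generation -/

/-- An intermediate field of `FC D / ℂ` containing the image of `F` is everything. -/
theorem eq_top_of_range_embC_le (E : IntermediateField ℂ (FC D))
    (hE : ∀ f : F, embC D f ∈ E) : E = ⊤ := by
  rw [eq_top_iff]
  rintro ⟨h, hh⟩ -
  -- the image of `E` in `MerFun`
  have key : FC D ≤ E.toSubfield.map (FC D).subtype := by
    apply Subfield.closure_le.mpr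
    rintro _ (⟨c, rfl⟩ | ⟨f, rfl⟩)
    · exact ⟨algebraMap ℂ (FC D) c, E.algebraMap_mem c, rfl⟩
    · exact ⟨embC D f, hE f, rfl⟩
  obtain ⟨y, hy, hyh⟩ := key hh
  have : y = ⟨h, hh⟩ := Subtype.ext hyh
  rw [← this]
  exact hy

/-- `FC D` is generated over `ℂ` by the image of `F`. -/
theorem adjoin_range_embC :
    IntermediateField.adjoin ℂ (Set.range (embC D)) = ⊤ :=
  eq_top_of_range_embC_le D _ fun f => IntermediateField.subset_adjoin ℂ _ ⟨f, rfl⟩

/-- The same, with `embC` written as the algebra map of `algebraF`. -/
theorem adjoin_range_algebraMap :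
    letI := algebraF D
    IntermediateField.adjoin ℂ (Set.range (algebraMap F (FC D))) = ⊤ :=
  adjoin_range_embC D

/-! ### Induction principle -/

/-- A property of elements of `MerFun` which holds for the complex constants and on the image of
`F`, and is stable under the field operations, holds on `FC D`. -/
theorem induction_FC {P : MerFun → Prop} (hconst : ∀ c : ℂ, P (const c))
    (hemb : ∀ f : F, P (D.emb f)) (hadd : ∀ a b, P a → P b → P (a + b))
    (hneg : ∀ a, P a → P (-a)) (hmul : ∀ a b, P a → P b → P (a * b))
    (hinv : ∀ a, P a → P a⁻¹) {h : MerFun} (hh : h ∈ FC D) : P h := by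
  have h1 : P 1 := by
    have := hconst 1
    rwa [show const 1 = 1 from by rw [← constHom_apply, map_one]] at this
  let S : Subfield MerFun :=
    { carrier := {a | P a}
      mul_mem' := fun ha hb => hmul _ _ ha hb
      one_mem' := h1
      add_mem' := fun ha hb => hadd _ _ ha hb
      zero_mem' := by
        have := hconst 0
        rwa [show const 0 = 0 from by rw [← constHom_apply, map_zero]] at this
      neg_mem' := fun ha => hneg _ ha
      inv_mem' := fun a ha => hinv a ha }
  have hle : FC D ≤ S := by
    apply Subfield.closure_le.mpr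
    rintro _ (⟨c, rfl⟩ | ⟨f, rfl⟩)
    · exact hconst c
    · exact hemb f
  exact hle hh

/-! ### The analytic data of the complexification -/

/-- Elements of `FC D` are fixed by `Γ`. -/
theorem smul_coe_of_mem (γ : SL(2, ℤ)) (hγ : γ ∈ Γ) (f : FC D) :
    γ • (f : MerFun) = (f : MerFun) := by
  refine induction_FC D (P := fun h => γ • h = h) (fun c => sl_smul_const γ c)
    (fun f => D.fixed γ hγ f) (fun a b ha hb => ?_) (fun a ha => ?_) (fun a b ha hb => ?_)
    (fun a ha => ?_) f.2
  · rw [smul_add, ha, hb]
  · rw [smul_neg, ha]
  · rw [smul_mul', ha, hb]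
  · rw [smul_inv'', ha]

/-- **The analytic realisation of the complexification**: the inclusion `FC D ⊆ MerFun`, with
constants `ℂ`, `xC ↦ j` and stabiliser exactly `Γ`. -/
def embDataC : EmbData ℂ (FC D) (RingHom.id ℂ) (xC D) Γ where
  emb := (FC D).subtype
  emb_const _ := rfl
  emb_x := D.emb_x
  fixed γ hγ f := smul_coe_of_mem D γ hγ f
  stab γ hγ := D.stab γ fun f => hγ (embC D f)

@[simp] theorem embDataC_emb (f : FC D) : (embDataC D).emb f = (f : MerFun) := rfl

/-- Cusp-meromorphy of all translates is inherited by the complexification. -/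
theorem isCuspMer_smul_coe {n : ℕ}
    (hcusp : ∀ (f : F) (g : SL(2, ℤ)), IsCuspMer n (g • D.emb f)) (f : FC D) (g : SL(2, ℤ)) :
    IsCuspMer n (g • (f : MerFun)) := by
  refine induction_FC D (P := fun h => IsCuspMer n (g • h)) (fun c => ?_)
    (fun f => hcusp f g) (fun a b ha hb => ?_) (fun a ha => ?_) (fun a b ha hb => ?_)
    (fun a ha => ?_) f.2
  · rw [sl_smul_const]
    exact isCuspMer_const n c
  · rw [smul_add]
    exact ha.add hb
  · rw [smul_neg]
    exact ha.neg
  · rw [smul_mul']
    exact ha.mul hb
  · rw [smul_inv'']
    exact ha.inv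

/-- The cusp-meromorphy hypothesis of block A for the complexification. -/
theorem isCuspMer_smul_embDataC {n : ℕ}
    (hcusp : ∀ (f : F) (g : SL(2, ℤ)), IsCuspMer n (g • D.emb f)) (f : FC D) (g : SL(2, ℤ)) :
    IsCuspMer n (g • (embDataC D).emb f) :=
  isCuspMer_smul_coe D hcusp f g

end Fermat.Agent.S27x.Cx
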